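import Mathlib

/-!
# S18, leaf (F5), abstract core: a constant field extension is unramified

`F1 ⊆ F2` fields, `L1 ⊆ F1` and `K ⊆ F2` subfields with `K / L1` algebraic and separable and
`F2 = F1(K)`.  If `O1` is a discrete valuation subring of `F1` containing `L1` and `O2` is ANY
valuation subring of `F2` with `O2 ∩ F1 = O1`, then `K ⊆ O2` and every nonzero element of `F2` is
a power of the uniformiser of `O1` times a unit of `O2` (`exists_zpow_mul_unit`): `e = 1`.

Proof: every `x ∈ F2` is `b / r` with `r ∈ O1` and `b` in the image `B'` of `O1 ⊗[L1] L'` for one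
finite subextension `L' / L1`; `B'` is finite and formally unramified over the DVR `O1`, so by
`Algebra.FormallyUnramified.map_maximalIdeal` its localisation at `m_{O2} ∩ B'` is a noetherian
local domain whose maximal ideal is generated by the uniformiser of `O1`.
-/

set_option autoImplicit false

open TensorProduct IsLocalRing

namespace Fermat.Agent.S18.ConstExt.Core

section Abstract

/-- In a noetherian local domain whose maximal ideal is generated by `p`, every nonzero
element is a power of `p` times a unit. -/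
theorem exists_pow_mul_unit_of_maximalIdeal_eq_span
    {S : Type*} [CommRing S] [IsDomain S] [IsLocalRing S] [IsNoetherianRing S]
    (p : S) (hp : maximalIdeal S = Ideal.span {p}) (x : S) (hx : x ≠ 0) :
    ∃ (n : ℕ) (u : Sˣ), x = p ^ n * u := by
  have hprin : (maximalIdeal S).IsPrincipal := ⟨⟨p, hp⟩⟩
  obtain ⟨n, hn⟩ := exists_maximalIdeal_pow_eq_of_principal S hprin (Ideal.span {x})
    (by simpa using hx)
  rw [hp, Ideal.span_singleton_pow, Ideal.span_singleton_eq_span_singleton] at hn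
  obtain ⟨u, hu⟩ := hn.symm
  exact ⟨n, u, hu.symm⟩

/-- Abstract step: `R` a DVR, `B` a domain, finite and formally unramified over `R`, mapping to a
local domain `O` (injectively, local over `R`).  Then every nonzero element of `B` is, in `O`,
a power of the uniformiser of `R` times a unit. -/
theorem exists_pow_mul_unit_of_formallyUnramified
    {R B O : Type*} [CommRing R] [IsDomain R] [IsDiscreteValuationRing R]
    [CommRing B] [IsDomain B] [Algebra R B] [Module.Finite R B] [Algebra.FormallyUnramified R B]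
    [CommRing O] [IsDomain O] [IsLocalRing O] [Algebra R O] [IsLocalHom (algebraMap R O)]
    [Algebra B O] [IsScalarTower R B O]
    (ϖ : R) (hϖ : Irreducible ϖ) (b : B) (hb0 : b ≠ 0) :
    ∃ (n : ℕ) (u : Oˣ), algebraMap B O b = algebraMap R O ϖ ^ n * u := by
  classical
  -- the prime `Q` of `B` below the maximal ideal of `O`
  let Q : Ideal B := (maximalIdeal O).comap (algebraMap B O)
  have hQ : Q.IsPrime := Ideal.comap_isPrime _ _
  let S := Localization.AtPrime Q
  -- the map `S → O`
  have hunits : ∀ y : Q.primeCompl, IsUnit (algebraMap B O y) := by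
    intro y
    have hy : (y : B) ∉ Q := y.2
    have : algebraMap B O y ∉ maximalIdeal O := fun h => hy h
    simpa [mem_maximalIdeal, mem_nonunits_iff] using this
  let ψ : S →+* O := IsLocalization.lift (M := Q.primeCompl) (g := algebraMap B O) hunits
  have hψ : ∀ x : B, ψ (algebraMap B S x) = algebraMap B O x := fun x =>
    IsLocalization.lift_eq _ _
  have hψR : ∀ r : R, ψ (algebraMap R S r) = algebraMap R O r := fun r => by
    rw [IsScalarTower.algebraMap_apply R B S, hψ, ← IsScalarTower.algebraMap_apply]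
  -- `R → S` is a local homomorphism
  have hloc : IsLocalHom (algebraMap R S) := by
    constructor
    intro r hr
    have : IsUnit (algebraMap R O r) := hψR r ▸ hr.map ψ
    exact IsLocalHom.map_nonunit r this
  have hmax : (maximalIdeal R).map (algebraMap R S) = maximalIdeal S :=
    Algebra.FormallyUnramified.map_maximalIdeal
  have hmax' : maximalIdeal S = Ideal.span {algebraMap R S ϖ} := by
    rw [← hmax, hϖ.maximalIdeal_eq, Ideal.map_span, Set.image_singleton]
  have hnoethB : IsNoetherianRing B := isNoetherian_of_tower R (isNoetherian_of_isNoetherianRing_of_finite R B)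
  have hnoeth : IsNoetherianRing S := IsLocalization.isNoetherianRing Q.primeCompl S inferInstance
  have hb0' : algebraMap B S b ≠ 0 := by
    intro h
    exact hb0 ((IsLocalization.injective S Q.primeCompl_le_nonZeroDivisors)
      (by rw [h, map_zero]))
  obtain ⟨n, u, hu⟩ := exists_pow_mul_unit_of_maximalIdeal_eq_span _ hmax' _ hb0'
  refine ⟨n, Units.map ψ.toMonoidHom u, ?_⟩
  have := congrArg ψ hu
  rw [hψ, map_mul, map_pow, hψR] at this
  exact this

end Abstract

section FiniteLevel

variable {R L1 L' O : Type*} [CommRing R] [IsDomain R] [IsDiscreteValuationRing R]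
  [Field L1] [Field L'] [Algebra L1 R] [Algebra L1 L'] [FiniteDimensional L1 L']
  [Algebra.IsSeparable L1 L']
  [CommRing O] [IsDomain O] [IsLocalRing O] [Algebra R O] [IsLocalHom (algebraMap R O)]
  [Algebra L1 O] [IsScalarTower L1 R O]

/-- The multiplication map `R ⊗[L1] L' → O`. -/
noncomputable def mulMap (g : L' →ₐ[L1] O) : R ⊗[L1] L' →ₐ[R] O :=
  Algebra.TensorProduct.lift (Algebra.ofId R O) g (fun _ _ => Commute.all _ _)

omit [IsDomain R] [IsDiscreteValuationRing R] [FiniteDimensional L1 L']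
  [Algebra.IsSeparable L1 L'] [IsDomain O] [IsLocalRing O] [IsLocalHom (algebraMap R O)] in
theorem mulMap_tmul (g : L' →ₐ[L1] O) (r : R) (c : L') :
    mulMap g (r ⊗ₜ[L1] c) = algebraMap R O r * g c := by
  simp [mulMap]

theorem exists_pow_mul_unit_of_mem_range (g : L' →ₐ[L1] O) (ϖ : R) (hϖ : Irreducible ϖ)
    (b : O) (hb : b ∈ (mulMap (R := R) g).range) (hb0 : b ≠ 0) :
    ∃ (n : ℕ) (u : Oˣ), b = algebraMap R O ϖ ^ n * u := by
  have : Algebra.FormallyUnramified L1 L' := Algebra.FormallyUnramified.of_isSeparable L1 L'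
  have : Algebra.FormallyUnramified R (mulMap (R := R) g).range :=
    Algebra.FormallyUnramified.of_surjective (mulMap (R := R) g).rangeRestrict
      (AlgHom.rangeRestrict_surjective _)
  have : Module.Finite R (mulMap (R := R) g).range :=
    Module.Finite.of_surjective (mulMap (R := R) g).rangeRestrict.toLinearMap
      (AlgHom.rangeRestrict_surjective _)
  have hb0' : (⟨b, hb⟩ : (mulMap (R := R) g).range) ≠ 0 := fun h => hb0 (congrArg Subtype.val h)
  obtain ⟨n, u, hu⟩ := exists_pow_mul_unit_of_formallyUnramified (R := R)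
    (B := (mulMap (R := R) g).range) (O := O) ϖ hϖ ⟨b, hb⟩ hb0'
  exact ⟨n, u, hu⟩

end FiniteLevel

section Main

variable {F1 F2 L1 K : Type*} [Field F1] [Field F2] [Field L1] [Field K]
  [Algebra L1 F1] [Algebra K F2] [Algebra L1 K] [Algebra F1 F2] [Algebra L1 F2]
  [IsScalarTower L1 F1 F2] [IsScalarTower L1 K F2]

/-- Chevalley: a valuation subring of `F2` lying exactly over `O1`. -/
theorem exists_valuationSubring_comap_eq (O1 : ValuationSubring F1) :
    ∃ O2 : ValuationSubring F2, O2.comap (algebraMap F1 F2) = O1 := by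
  obtain ⟨O2, h, hloc⟩ :=
    IsLocalRing.exists_factor_valuationRing ((algebraMap F1 F2).comp O1.subtype)
  refine ⟨O2, ?_⟩
  ext x
  rw [ValuationSubring.mem_comap]
  constructor
  · intro hx
    by_contra hx1
    have hx0 : x ≠ 0 := fun h0 => hx1 (h0 ▸ O1.zero_mem)
    have hxi : x⁻¹ ∈ O1 := (O1.mem_or_inv_mem x).resolve_left hx1
    have hunit : IsUnit (((algebraMap F1 F2).comp O1.subtype).codRestrict O2.toSubring h
        ⟨x⁻¹, hxi⟩) := by
      refine isUnit_iff_exists_inv.mpr ⟨⟨algebraMap F1 F2 x, hx⟩, Subtype.ext ?_⟩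
      change algebraMap F1 F2 x⁻¹ * algebraMap F1 F2 x = 1
      rw [← map_mul, inv_mul_cancel₀ hx0, map_one]
    have hunit' : IsUnit (⟨x⁻¹, hxi⟩ : O1) := hloc.map_nonunit _ hunit
    obtain ⟨y, hy⟩ := isUnit_iff_exists_inv.mp hunit'
    have hy' : x⁻¹ * (y : F1) = 1 := congrArg Subtype.val hy
    have : (y : F1) = x := by
      field_simp at hy'
      exact hy'
    exact hx1 (this ▸ y.2)
  · intro hx
    exact h ⟨x, hx⟩


variable [Algebra.IsAlgebraic L1 K]

/-- Constants stay integral: `K ⊆ O2` as soon as `L1 ⊆ O2`. -/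
theorem algebraMap_mem_of_comap (O1 : ValuationSubring F1)
    (hL1 : ∀ a : L1, algebraMap L1 F1 a ∈ O1) (O2 : ValuationSubring F2)
    (hcomap : O2.comap (algebraMap F1 F2) = O1) (a : K) : algebraMap K F2 a ∈ O2 := by
  have hint : IsIntegral L1 a := Algebra.IsIntegral.isIntegral a
  have hL1' : ∀ c : L1, algebraMap L1 F2 c ∈ O2 := fun c => by
    rw [IsScalarTower.algebraMap_apply L1 F1 F2, ← ValuationSubring.mem_comap, hcomap]
    exact hL1 c
  -- integral over the subring `O2`
  let ι : L1 →+* O2 := (algebraMap L1 F2).codRestrict O2.toSubring hL1'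
  have h1 : IsIntegral O2 (algebraMap K F2 a) := by
    obtain ⟨p, hp, hpa⟩ := hint
    refine ⟨p.map ι, hp.map ι, ?_⟩
    rw [Polynomial.eval₂_map]
    have hcomp : (algebraMap O2 F2).comp ι = (algebraMap K F2).comp (algebraMap L1 K) := by
      ext c
      change algebraMap L1 F2 c = _
      rw [IsScalarTower.algebraMap_apply L1 K F2]
      rfl
    rw [hcomp, ← Polynomial.hom_eval₂, hpa, map_zero]
  obtain ⟨y, hy⟩ := IsIntegrallyClosed.isIntegral_iff.mp h1
  rw [← hy]
  exact y.2


/-- The ring homomorphism `O1 → O2` induced by `F1 → F2`. -/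
def liftHom (O1 : ValuationSubring F1) (O2 : ValuationSubring F2)
    (h : ∀ r : O1, algebraMap F1 F2 (r : F1) ∈ O2) : O1 →+* O2 where
  toFun r := ⟨algebraMap F1 F2 (r : F1), h r⟩
  map_one' := Subtype.ext (by simp)
  map_mul' a b := Subtype.ext (by simp)
  map_zero' := Subtype.ext (by simp)
  map_add' a b := Subtype.ext (by simp)

/-- The ring homomorphism `L1 → O1`. -/
def constHom (O1 : ValuationSubring F1) (hL1 : ∀ a : L1, algebraMap L1 F1 a ∈ O1) : L1 →+* O1 where
  toFun a := ⟨algebraMap L1 F1 a, hL1 a⟩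
  map_one' := Subtype.ext (by simp)
  map_mul' a b := Subtype.ext (by simp)
  map_zero' := Subtype.ext (by simp)
  map_add' a b := Subtype.ext (by simp)

variable [Algebra.IsSeparable L1 K]

set_option maxHeartbeats 800000 in
theorem exists_zpow_mul_unit (O1 : ValuationSubring F1) [IsDiscreteValuationRing O1]
    (hL1 : ∀ a : L1, algebraMap L1 F1 a ∈ O1) (O2 : ValuationSubring F2)
    (hcomap : O2.comap (algebraMap F1 F2) = O1)
    (hgen : IntermediateField.adjoin F1 (Set.range (algebraMap K F2)) = ⊤)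
    (ϖ : O1) (hϖ : Irreducible ϖ) (x : F2) (hx : x ≠ 0) :
    ∃ (n : ℤ) (u : F2), u ∈ O2 ∧ u⁻¹ ∈ O2 ∧ x = algebraMap F1 F2 (ϖ : F1) ^ n * u := by
  classical
  have hK := algebraMap_mem_of_comap (K := K) O1 hL1 O2 hcomap
  have hO1 : ∀ r : O1, algebraMap F1 F2 (r : F1) ∈ O2 := fun r => by
    rw [← ValuationSubring.mem_comap, hcomap]; exact r.2
  -- algebra structures
  let algRO : Algebra O1 O2 := (liftHom O1 O2 hO1).toAlgebra
  let algLR : Algebra L1 O1 := (constHom O1 hL1).toAlgebra
  let algLO : Algebra L1 O2 := ((liftHom O1 O2 hO1).comp (constHom O1 hL1)).toAlgebra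
  have tower : IsScalarTower L1 O1 O2 := IsScalarTower.of_algebraMap_eq' rfl
  have hloc : IsLocalHom (algebraMap O1 O2) := by
    constructor
    intro r hr
    obtain ⟨y, hy⟩ := isUnit_iff_exists_inv.mp hr
    have hy' : algebraMap F1 F2 (r : F1) * (y : F2) = 1 := congrArg Subtype.val hy
    have hr0 : (r : F1) ≠ 0 := by
      intro h0
      rw [h0, map_zero, zero_mul] at hy'
      exact zero_ne_one hy'
    have hyr : (y : F2) = algebraMap F1 F2 (r : F1)⁻¹ := by
      rw [map_inv₀]
      exact eq_inv_of_mul_eq_one_right hy'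
    have hri : (r : F1)⁻¹ ∈ O1 := by
      have h1 : (r : F1)⁻¹ ∈ O2.comap (algebraMap F1 F2) := by
        rw [ValuationSubring.mem_comap, ← hyr]
        exact y.2
      rwa [hcomap] at h1
    exact isUnit_iff_exists_inv.mpr ⟨⟨_, hri⟩, Subtype.ext (mul_inv_cancel₀ hr0)⟩
  -- representation of `x`
  have halg : ∀ y ∈ Set.range (algebraMap K F2), IsAlgebraic F1 y := by
    rintro _ ⟨a, rfl⟩
    have h1 : IsAlgebraic L1 a := Algebra.IsAlgebraic.isAlgebraic a
    have h2 : IsAlgebraic L1 (algebraMap K F2 a) := h1.algebraMap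
    exact h2.tower_top F1
  have hx_mem : x ∈ Algebra.adjoin F1 (Set.range (algebraMap K F2)) := by
    have h1 := IntermediateField.adjoin_toSubalgebra_of_isAlgebraic halg
    have h2 : x ∈ (IntermediateField.adjoin F1 (Set.range (algebraMap K F2))).toSubalgebra := by
      rw [hgen]; trivial
    rwa [h1] at h2
  replace hx_mem : x ∈ Subalgebra.toSubmodule (Algebra.adjoin F1 (Set.range (algebraMap K F2))) :=
    hx_mem
  rw [Algebra.adjoin_eq_span] at hx_mem
  have hcl : (Submonoid.closure (Set.range (algebraMap K F2)) : Set F2)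
      = Set.range (algebraMap K F2) := by
    have : Set.range (algebraMap K F2)
        = ((MonoidHom.mrange (algebraMap K F2 : K →* F2) : Submonoid F2) : Set F2) := by
      ext y; simp
    rw [this, Submonoid.closure_eq]
  rw [hcl] at hx_mem
  obtain ⟨a, ha⟩ := Finsupp.mem_span_range_iff_exists_finsupp.mp hx_mem
  -- the finite level
  let L' : IntermediateField L1 K := IntermediateField.adjoin L1 (a.support : Set K)
  have hfd : FiniteDimensional L1 L' :=
    IntermediateField.finiteDimensional_adjoin (fun c _ => Algebra.IsIntegral.isIntegral c)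
  have hsep : Algebra.IsSeparable L1 L' := inferInstance
  let g : L' →ₐ[L1] O2 :=
    { toFun := fun c => ⟨algebraMap K F2 (c : K), hK c⟩
      map_one' := Subtype.ext (by simp)
      map_mul' := fun c d => Subtype.ext (by simp)
      map_zero' := Subtype.ext (by simp)
      map_add' := fun c d => Subtype.ext (by simp)
      commutes' := fun c => Subtype.ext (by
        change algebraMap K F2 (algebraMap L1 K c) = algebraMap F1 F2 (algebraMap L1 F1 c)
        rw [← IsScalarTower.algebraMap_apply, ← IsScalarTower.algebraMap_apply]) }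
  -- common denominator
  obtain ⟨r, hr⟩ := IsLocalization.exist_integer_multiples_of_finset (nonZeroDivisors O1)
    (a.support.image a)
  have hr0 : ((r : O1) : F1) ≠ 0 := by
    have := nonZeroDivisors.ne_zero r.2
    exact fun h => this (Subtype.ext h)
  have hr' : ∀ c ∈ a.support, ∃ rc : O1, (rc : F1) = ((r : O1) : F1) * a c := by
    intro c hc
    obtain ⟨rc, hrc⟩ := hr (a c) (Finset.mem_image_of_mem a hc)
    refine ⟨rc, ?_⟩
    rw [Submonoid.smul_def, Algebra.smul_def] at hrc
    exact hrc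
  choose! rc hrc using hr'
  let z : O1 ⊗[L1] L' :=
    ∑ c ∈ a.support.attach, rc c.1 ⊗ₜ[L1] ⟨c.1, IntermediateField.subset_adjoin L1 _ (Finset.mem_coe.2 c.2)⟩
  have hz : ((mulMap (R := O1) g z : O2) : F2) = algebraMap F1 F2 ((r : O1) : F1) * x := by
    have h1 : ((mulMap (R := O1) g z : O2) : F2) = O2.subtype (mulMap (R := O1) g z) := rfl
    rw [h1, map_sum, map_sum, ← ha, Finsupp.sum, Finset.mul_sum, ← Finset.sum_attach a.support]
    refine Finset.sum_congr rfl fun c _ => ?_
    rw [mulMap_tmul, map_mul, Algebra.smul_def, ← mul_assoc, ← map_mul (algebraMap F1 F2),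
      ← hrc c.1 c.2]
    rfl
  have hb0 : (mulMap (R := O1) g z : O2) ≠ 0 := by
    intro h0
    rw [h0] at hz
    exact mul_ne_zero ((map_ne_zero (algebraMap F1 F2)).2 hr0) hx hz.symm
  obtain ⟨n, u, hu⟩ := exists_pow_mul_unit_of_mem_range (R := O1) (O := O2) g ϖ hϖ
    (mulMap (R := O1) g z) ⟨z, rfl⟩ hb0
  have hu' : algebraMap F1 F2 ((r : O1) : F1) * x = algebraMap F1 F2 (ϖ : F1) ^ n * (u : O2) := by
    rw [← hz, hu]
    rfl
  have hrO : (r : O1) ≠ 0 := fun h => hr0 (by rw [h]; rfl)
  obtain ⟨j, w, hw⟩ := IsDiscreteValuationRing.eq_unit_mul_pow_irreducible hrO hϖ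
  have hw' : ((r : O1) : F1) = ((w : O1) : F1) * (ϖ : F1) ^ j := by
    rw [hw]; rfl
  have hwinv : ((w : O1) : F1) * (((w⁻¹ : O1ˣ) : O1) : F1) = 1 := by
    have := congrArg (Subtype.val) (Units.mul_inv w)
    exact this
  have huinv : ((u : O2) : F2) * (((u⁻¹ : O2ˣ) : O2) : F2) = 1 := by
    have := congrArg (Subtype.val) (Units.mul_inv u)
    exact this
  have hw0 : ((w : O1) : F1) ≠ 0 := left_ne_zero_of_mul_eq_one hwinv
  have hu0 : ((u : O2) : F2) ≠ 0 := left_ne_zero_of_mul_eq_one huinv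
  have hϖ0 : (ϖ : F1) ≠ 0 := fun h => hϖ.ne_zero (Subtype.ext h)
  have hφϖ0 : algebraMap F1 F2 (ϖ : F1) ≠ 0 := (map_ne_zero _).2 hϖ0
  have hφw0 : algebraMap F1 F2 ((w : O1) : F1) ≠ 0 := (map_ne_zero _).2 hw0
  refine ⟨(n : ℤ) - j, (u : O2) * algebraMap F1 F2 (((w⁻¹ : O1ˣ) : O1) : F1), ?_, ?_, ?_⟩
  · exact O2.mul_mem _ _ u.1.2 (hO1 _)
  · have : ((u : O2) * algebraMap F1 F2 (((w⁻¹ : O1ˣ) : O1) : F1))⁻¹
        = (((u⁻¹ : O2ˣ) : O2) : F2) * algebraMap F1 F2 ((w : O1) : F1) := by
      rw [mul_inv, ← map_inv₀]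
      congr 1
      · exact inv_eq_of_mul_eq_one_right huinv
      · congr 1
        exact inv_eq_of_mul_eq_one_left hwinv
    rw [this]
    exact O2.mul_mem _ _ (u⁻¹).1.2 (hO1 _)
  · rw [hw', map_mul, map_pow] at hu'
    have hwi : algebraMap F1 F2 (((w⁻¹ : O1ˣ) : O1) : F1)
        = (algebraMap F1 F2 ((w : O1) : F1))⁻¹ := by
      rw [← map_inv₀]
      congr 1
      exact (inv_eq_of_mul_eq_one_right hwinv).symm
    rw [hwi, zpow_sub₀ hφϖ0, zpow_natCast, zpow_natCast]
    field_simp
    linear_combination hu'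

end Main

section DVR

variable {F : Type*} [Field F]

/-- A valuation subring in which every nonzero element of the field is `p ^ n * unit`
(with `p` a non-unit of the subring) is a discrete valuation ring with uniformiser `p`. -/
theorem irreducible_and_isPrincipalIdealRing_of_factorization (O : ValuationSubring F) (p : F)
    (hp : p ∈ O) (hpinv : p⁻¹ ∉ O)
    (h : ∀ x : F, x ≠ 0 → ∃ (n : ℤ) (u : F), u ∈ O ∧ u⁻¹ ∈ O ∧ x = p ^ n * u) :
    Irreducible (⟨p, hp⟩ : O) ∧ IsPrincipalIdealRing O ∧ O ≠ ⊤ := by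
  have hp0 : p ≠ 0 := by
    rintro rfl
    exact hpinv (by simp [O.zero_mem])
  -- nonnegativity of the exponent on `O`
  have hnonneg : ∀ (x : F) (n : ℤ) (u : F), x ∈ O → u⁻¹ ∈ O → x = p ^ n * u → u ≠ 0 → 0 ≤ n := by
    intro x n u hx hui hxe hu0
    by_contra hn
    have hn' : 0 ≤ -n - 1 := by omega
    have h1 : p ^ n = x * u⁻¹ := by rw [hxe, mul_assoc, mul_inv_cancel₀ hu0, mul_one]
    have h2 : p⁻¹ = p ^ n * p ^ (-n - 1) := by
      rw [← zpow_add₀ hp0]
      have : n + (-n - 1) = -1 := by ring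
      rw [this, zpow_neg_one]
    apply hpinv
    rw [h2, h1]
    refine O.mul_mem _ _ (O.mul_mem _ _ hx hui) ?_
    obtain ⟨k, hk⟩ := Int.eq_ofNat_of_zero_le hn'
    rw [hk, zpow_natCast]
    exact pow_mem hp k
  -- units from `u, u⁻¹ ∈ O`
  have mkUnit : ∀ (u : F) (hu : u ∈ O) (hui : u⁻¹ ∈ O), u ≠ 0 →
      ∃ w : Oˣ, ((w : O) : F) = u := by
    intro u hu hui hu0
    exact ⟨⟨⟨u, hu⟩, ⟨u⁻¹, hui⟩, Subtype.ext (mul_inv_cancel₀ hu0),
      Subtype.ext (inv_mul_cancel₀ hu0)⟩, rfl⟩
  have hnotunit : ¬ IsUnit (⟨p, hp⟩ : O) := by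
    intro hu
    obtain ⟨y, hy⟩ := isUnit_iff_exists_inv.mp hu
    have hy' : p * (y : F) = 1 := congrArg Subtype.val hy
    have : (y : F) = p⁻¹ := eq_inv_of_mul_eq_one_right hy'
    exact hpinv (this ▸ y.2)
  -- the factorisation inside `O`
  have hfac : ∀ x : O, x ≠ 0 → ∃ n : ℕ, Associated ((⟨p, hp⟩ : O) ^ n) x := by
    intro x hx
    have hx0 : (x : F) ≠ 0 := fun h0 => hx (Subtype.ext h0)
    obtain ⟨n, u, hu, hui, hxe⟩ := h x hx0
    have hu0 : u ≠ 0 := by
      rintro rfl
      rw [mul_zero] at hxe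
      exact hx0 hxe
    have hn := hnonneg x n u x.2 hui hxe hu0
    obtain ⟨k, rfl⟩ := Int.eq_ofNat_of_zero_le hn
    obtain ⟨w, hw⟩ := mkUnit u hu hui hu0
    refine ⟨k, w, Subtype.ext ?_⟩
    push_cast
    rw [hw, hxe, zpow_natCast]
  have hirr : Irreducible (⟨p, hp⟩ : O) := by
    rw [irreducible_iff]
    refine ⟨hnotunit, ?_⟩
    intro a b hab
    have ha0 : a ≠ 0 := by
      rintro rfl
      rw [zero_mul] at hab
      exact hp0 (congrArg Subtype.val hab)
    have hb0 : b ≠ 0 := by
      rintro rfl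
      rw [mul_zero] at hab
      exact hp0 (congrArg Subtype.val hab)
    obtain ⟨i, u, hu⟩ := hfac a ha0
    obtain ⟨j, w, hw⟩ := hfac b hb0
    rcases Nat.eq_zero_or_pos i with hi | hi
    · left
      rw [← hu, hi, pow_zero, one_mul]
      exact u.isUnit
    rcases Nat.eq_zero_or_pos j with hj | hj
    · right
      rw [← hw, hj, pow_zero, one_mul]
      exact w.isUnit
    exfalso
    -- `p = p^(i+j) * (u w)` with `i + j ≥ 2`
    have h1 : (⟨p, hp⟩ : O) = ⟨p, hp⟩ * (⟨p, hp⟩ ^ (i + j - 1) * (u * w)) := by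
      have hij : i + j = (i + j - 1) + 1 := by omega
      calc (⟨p, hp⟩ : O) = a * b := hab
        _ = (⟨p, hp⟩ ^ i * u) * (⟨p, hp⟩ ^ j * w) := by rw [hu, hw]
        _ = ⟨p, hp⟩ ^ (i + j) * (u * w) := by rw [pow_add]; ring
        _ = ⟨p, hp⟩ * (⟨p, hp⟩ ^ (i + j - 1) * (u * w)) := by
            conv_lhs => rw [hij, pow_succ]
            ring
    have hpO : (⟨p, hp⟩ : O) ≠ 0 := fun h0 => hp0 (congrArg Subtype.val h0)
    have h2 : (1 : O) = ⟨p, hp⟩ ^ (i + j - 1) * (u * w) := by
      have := mul_left_cancel₀ hpO (by rw [mul_one]; exact h1 :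
        (⟨p, hp⟩ : O) * 1 = ⟨p, hp⟩ * (⟨p, hp⟩ ^ (i + j - 1) * (u * w)))
      exact this
    have hk : i + j - 1 = (i + j - 2) + 1 := by omega
    rw [hk, pow_succ'] at h2
    exact hnotunit (isUnit_iff_exists_inv.mpr ⟨_, by rw [mul_assoc] at h2; exact h2.symm⟩)
  refine ⟨hirr, ?_, ?_⟩
  · exact (IsDiscreteValuationRing.ofHasUnitMulPowIrreducibleFactorization
      ⟨⟨p, hp⟩, hirr, fun {x} hx => hfac x hx⟩).toIsPrincipalIdealRing
  · intro htop
    exact hpinv (htop ▸ ValuationSubring.mem_top _)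

end DVR

end Fermat.Agent.S18.ConstExt.Core
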