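import Mathlib
import Fermat.Prelude.Def_ModularCurve_LaurentCoeff
import Fermat.Prelude.Def_AlgebraicCurve_DivisorClassGroup
import Fermat.Agent.S18.ConstExt.Core

/-!
# S18, leaf (F5): places extend along a constant field extension with `e = 1`

`L1 ⊆ K` an algebraic extension of fields of characteristic zero, `F₀` a subfield of `ℚ((q))`.
Every place `P1` of `laurentBaseChange L1 F₀` over `L1` extends to a place `P` of
`laurentBaseChange K F₀` over `K` with `P.ord (up x) = P1.ord x` (`exists_place_extension`).
-/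

set_option autoImplicit false

noncomputable section

open HahnSeries AlgebraicCurve ModularCurve

namespace Fermat.Agent.S18.ConstExt

section Up

variable {L1 K : Type*} [Field L1] [Field K] [Algebra ℚ L1] [Algebra ℚ K] [Algebra L1 K]
variable (F₀ : IntermediateField ℚ (LaurentSeries ℚ))

theorem coeffMap_coeffEmb_up (x : LaurentSeries ℚ) :
    coeffMap (algebraMap L1 K) (coeffEmb L1 x) = coeffEmb K x := by
  rw [coeffEmb, coeffEmb, coeffMap_coeffMap]
  exact coeffMap_congr (Subsingleton.elim _ _) x

omit [Algebra ℚ L1] [Algebra ℚ K] in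
theorem coeffMap_algebraMap_up (c : L1) :
    coeffMap (algebraMap L1 K) (algebraMap L1 (LaurentSeries L1) c)
      = algebraMap K (LaurentSeries K) (algebraMap L1 K c) := by
  rw [algebraMap_laurentSeries_eq_single, algebraMap_laurentSeries_eq_single, coeffMap_single]

variable {F₀} in
theorem coeffMap_mem_up {x : LaurentSeries L1} (hx : x ∈ laurentBaseChange L1 F₀) :
    coeffMap (algebraMap L1 K) x ∈ laurentBaseChange K F₀ := by
  rw [mem_laurentBaseChange_iff] at hx
  induction hx using Subfield.closure_induction with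
  | mem y hy =>
      rcases hy with ⟨a, rfl⟩ | ⟨z, hz, rfl⟩
      · rw [coeffMap_algebraMap_up]
        exact (laurentBaseChange K F₀).algebraMap_mem _
      · rw [coeffMap_coeffEmb_up]
        exact coeffEmb_mem_laurentBaseChange K hz
  | one => simp
  | add x y _ _ hx hy => simpa using add_mem hx hy
  | neg x _ hx => simpa using neg_mem hx
  | inv x _ hx => simpa using inv_mem hx
  | mul x y _ _ hx hy => simpa using mul_mem hx hy

/-- The base change map `F_{L1} → F_K` on function fields. -/
def up : laurentBaseChange L1 F₀ →+* laurentBaseChange K F₀ where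
  toFun x := ⟨coeffMap (algebraMap L1 K) x.1, coeffMap_mem_up x.2⟩
  map_one' := Subtype.ext (by simp)
  map_mul' a b := Subtype.ext (by simp)
  map_zero' := Subtype.ext (by simp)
  map_add' a b := Subtype.ext (by simp)

@[simp]
theorem coe_up (x : laurentBaseChange L1 F₀) :
    ((up (K := K) F₀ x : laurentBaseChange K F₀) : LaurentSeries K)
      = coeffMap (algebraMap L1 K) (x : LaurentSeries L1) := rfl

theorem up_algebraMap (c : L1) :
    up (K := K) F₀ (algebraMap L1 (laurentBaseChange L1 F₀) c)
      = algebraMap K (laurentBaseChange K F₀) (algebraMap L1 K c) :=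
  Subtype.ext (coeffMap_algebraMap_up c)

end Up

section Generation

variable {L1 K : Type*} [Field L1] [Field K] [Algebra ℚ L1] [Algebra ℚ K] [Algebra L1 K]
variable (F₀ : IntermediateField ℚ (LaurentSeries ℚ))

/-- `F_K` is generated over (the image of) `F_{L1}` by the constants `K`. -/
theorem adjoin_range_eq_top :
    letI : Algebra (laurentBaseChange L1 F₀) (laurentBaseChange K F₀) := (up F₀).toAlgebra
    IntermediateField.adjoin (laurentBaseChange L1 F₀)
      (Set.range (algebraMap K (laurentBaseChange K F₀))) = ⊤ := by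
  let _ : Algebra (laurentBaseChange L1 F₀) (laurentBaseChange K F₀) := (up F₀).toAlgebra
  rw [eq_top_iff]
  rintro ⟨x, hx⟩ -
  -- the image of the adjoin in `K((q))`
  let T : Subfield (LaurentSeries K) :=
    (IntermediateField.adjoin (laurentBaseChange L1 F₀)
      (Set.range (algebraMap K (laurentBaseChange K F₀)))).toSubfield.map
        (laurentBaseChange K F₀).val.toRingHom
  have hle : Subfield.closure (Set.range (algebraMap K (LaurentSeries K)) ∪
      (⇑(coeffEmb K) '' (F₀ : Set (LaurentSeries ℚ)))) ≤ T := by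
    rw [Subfield.closure_le]
    rintro y (⟨a, rfl⟩ | ⟨z, hz, rfl⟩)
    · exact ⟨algebraMap K (laurentBaseChange K F₀) a,
        IntermediateField.subset_adjoin _ _ ⟨a, rfl⟩, rfl⟩
    · refine ⟨algebraMap (laurentBaseChange L1 F₀) (laurentBaseChange K F₀)
          ⟨coeffEmb L1 z, coeffEmb_mem_laurentBaseChange L1 hz⟩,
        IntermediateField.algebraMap_mem _ _, ?_⟩
      exact coeffMap_coeffEmb_up z
  obtain ⟨y, hy, hyx⟩ := hle (mem_laurentBaseChange_iff.mp hx)
  have : y = ⟨x, hx⟩ := Subtype.ext hyx
  rw [← this]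
  exact hy

end Generation

section Extension

variable {L1 K : Type*} [Field L1] [Field K] [Algebra ℚ L1] [Algebra ℚ K] [Algebra L1 K]
  [Algebra.IsAlgebraic L1 K]
variable (F₀ : IntermediateField ℚ (LaurentSeries ℚ))

set_option maxHeartbeats 800000 in
/-- **Constant field extensions are unramified.**  Every place of `F_{L1}` extends to a place of
`F_K` with the same `ord` on `F_{L1}`. -/
theorem exists_place_extension (P1 : Place L1 (laurentBaseChange L1 F₀)) :
    ∃ P : Place K (laurentBaseChange K F₀),
      ∀ x : laurentBaseChange L1 F₀, P.ord (up F₀ x) = P1.ord x := by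
  classical
  let _ : Algebra (laurentBaseChange L1 F₀) (laurentBaseChange K F₀) := (up F₀).toAlgebra
  let _ : Algebra L1 (laurentBaseChange K F₀) :=
    ((algebraMap K (laurentBaseChange K F₀)).comp (algebraMap L1 K)).toAlgebra
  have : IsScalarTower L1 K (laurentBaseChange K F₀) := IsScalarTower.of_algebraMap_eq' rfl
  have : IsScalarTower L1 (laurentBaseChange L1 F₀) (laurentBaseChange K F₀) := by
    refine IsScalarTower.of_algebraMap_eq fun c => ?_
    change algebraMap K (laurentBaseChange K F₀) (algebraMap L1 K c)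
      = up F₀ (algebraMap L1 (laurentBaseChange L1 F₀) c)
    exact (up_algebraMap F₀ c).symm
  have : CharZero L1 := algebraRat.charZero L1
  have : PerfectField L1 := PerfectField.ofCharZero
  have : Algebra.IsSeparable L1 K := Algebra.IsAlgebraic.isSeparable_of_perfectField
  have hup : ∀ x, algebraMap (laurentBaseChange L1 F₀) (laurentBaseChange K F₀) x = up F₀ x :=
    fun _ => rfl
  obtain ⟨O2, hO2⟩ := Core.exists_valuationSubring_comap_eq
    (F2 := laurentBaseChange K F₀) P1.toValuationSubring
  have hK := Core.algebraMap_mem_of_comap (K := K) P1.toValuationSubring P1.algebraMap_mem' O2 hO2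
  obtain ⟨ϖ, hϖ⟩ := IsDiscreteValuationRing.exists_irreducible P1.toValuationSubring
  have hfact := Core.exists_zpow_mul_unit (K := K) P1.toValuationSubring P1.algebraMap_mem' O2 hO2
    (adjoin_range_eq_top F₀) ϖ hϖ
  have hmem : ∀ x : laurentBaseChange L1 F₀, up (K := K) F₀ x ∈ O2 ↔ x ∈ P1.toValuationSubring := by
    intro x
    rw [← hO2, ValuationSubring.mem_comap]
    rfl
  have hϖ0 : (ϖ : laurentBaseChange L1 F₀) ≠ 0 := fun h => hϖ.ne_zero (Subtype.ext h)
  have hpmem : up (K := K) F₀ (ϖ : laurentBaseChange L1 F₀) ∈ O2 := (hmem _).2 ϖ.2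
  have hpinv : (up (K := K) F₀ (ϖ : laurentBaseChange L1 F₀))⁻¹ ∉ O2 := by
    rw [← map_inv₀, hmem]
    intro hmem'
    exact hϖ.not_isUnit (isUnit_iff_exists_inv.mpr ⟨⟨_, hmem'⟩, Subtype.ext (mul_inv_cancel₀ hϖ0)⟩)
  obtain ⟨hirr, hpid, htop⟩ := Core.irreducible_and_isPrincipalIdealRing_of_factorization O2
    (up (K := K) F₀ (ϖ : laurentBaseChange L1 F₀)) hpmem hpinv hfact
  let P : Place K (laurentBaseChange K F₀) :=
    { toValuationSubring := O2
      algebraMap_mem' := hK
      ne_top' := htop
      isPrincipalIdealRing' := hpid }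
  refine ⟨P, fun x => ?_⟩
  rcases eq_or_ne x 0 with rfl | hx
  · simp
  obtain ⟨u, hu⟩ := P1.exists_unit_mul_zpow hx hϖ
  -- the image of the unit `u`
  have hu1 : ((u : P1.toValuationSubring) : laurentBaseChange L1 F₀)
      * (((u⁻¹ : P1.toValuationSubringˣ) : P1.toValuationSubring) : laurentBaseChange L1 F₀) = 1 :=
    congrArg Subtype.val (Units.mul_inv u)
  have hu2 : (((u⁻¹ : P1.toValuationSubringˣ) : P1.toValuationSubring) : laurentBaseChange L1 F₀)
      * ((u : P1.toValuationSubring) : laurentBaseChange L1 F₀) = 1 :=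
    congrArg Subtype.val (Units.inv_mul u)
  let u' : P.toValuationSubringˣ :=
    ⟨⟨up (K := K) F₀ ((u : P1.toValuationSubring) : laurentBaseChange L1 F₀),
        (hmem _).2 (u : P1.toValuationSubring).2⟩,
      ⟨up (K := K) F₀ (((u⁻¹ : P1.toValuationSubringˣ) : P1.toValuationSubring) :
          laurentBaseChange L1 F₀), (hmem _).2 ((u⁻¹ : P1.toValuationSubringˣ) :
            P1.toValuationSubring).2⟩,
      Subtype.ext (by
        change up (K := K) F₀ _ * up (K := K) F₀ _ = 1
        rw [← map_mul, hu1, map_one]),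
      Subtype.ext (by
        change up (K := K) F₀ _ * up (K := K) F₀ _ = 1
        rw [← map_mul, hu2, map_one])⟩
  have hux : up (K := K) F₀ x
      = ((u' : P.toValuationSubring) : laurentBaseChange K F₀)
        * ((⟨up (K := K) F₀ (ϖ : laurentBaseChange L1 F₀), hpmem⟩ : P.toValuationSubring) :
            laurentBaseChange K F₀) ^ (P1.ord x) := by
    conv_lhs => rw [hu]
    rw [map_mul, map_zpow₀]
  rw [hux]
  exact P.ord_unit_smul_zpow u' hirr (P1.ord x)

/-- Placewise divisibility over the big constant field descends to the small one. -/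
theorem dvd_ord_sub_of_forall_place (m : ℤ) (x₁ x₂ : laurentBaseChange L1 F₀)
    (h : ∀ P : Place K (laurentBaseChange K F₀),
      m ∣ P.ord (up F₀ x₁) - P.ord (up F₀ x₂))
    (P1 : Place L1 (laurentBaseChange L1 F₀)) : m ∣ P1.ord x₁ - P1.ord x₂ := by
  obtain ⟨P, hP⟩ := exists_place_extension (K := K) F₀ P1
  rw [← hP x₁, ← hP x₂]
  exact h P

/-- Single-function form of `dvd_ord_sub_of_forall_place`. -/
theorem dvd_ord_of_forall_place (m : ℤ) (x : laurentBaseChange L1 F₀)
    (h : ∀ P : Place K (laurentBaseChange K F₀), m ∣ P.ord (up F₀ x))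
    (P1 : Place L1 (laurentBaseChange L1 F₀)) : m ∣ P1.ord x := by
  obtain ⟨P, hP⟩ := exists_place_extension (K := K) F₀ P1
  rw [← hP x]
  exact h P

end Extension

end Fermat.Agent.S18.ConstExt
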