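import Mathlib
import Fermat.Agent.S18.ConstExt.Place
import Fermat.Agent.S18.Places.Unramified

/-!
# S18, leaf (F5d): restriction of places along a constant field extension, with `e = 1`

`L1 ⊆ K` algebraic, characteristic zero, `F₀ ⊆ ℚ((q))`.  Every place `P` of
`laurentBaseChange K F₀` over `K` restricts to a place `down F₀ P` of `laurentBaseChange L1 F₀`
over `L1`, and `P.ord (up F₀ x) = (down F₀ P).ord x` (`ord_up`).  Every place of the small field is
of this form (`exists_down_eq`).
-/

set_option autoImplicit false
set_option linter.style.haveILetI false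
set_option linter.unusedSectionVars false

noncomputable section

open HahnSeries AlgebraicCurve ModularCurve

namespace Fermat.Agent.S18.ConstExt

variable {L1 K : Type*} [Field L1] [Field K] [Algebra ℚ L1] [Algebra ℚ K] [Algebra L1 K]
variable (F₀ : IntermediateField ℚ (LaurentSeries ℚ))

/-- The algebra structure `F_{L1} → F_K` given by `up`. -/
@[reducible] def algUp : Algebra (laurentBaseChange L1 F₀) (laurentBaseChange K F₀) :=
  (up F₀).toAlgebra

/-- The algebra structure `L1 → F_K`. -/
@[reducible] def algConst : Algebra L1 (laurentBaseChange K F₀) :=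
  ((algebraMap K (laurentBaseChange K F₀)).comp (algebraMap L1 K)).toAlgebra

theorem isScalarTower_const :
    letI := algConst (L1 := L1) (K := K) F₀
    IsScalarTower L1 K (laurentBaseChange K F₀) :=
  letI := algConst (L1 := L1) (K := K) F₀
  IsScalarTower.of_algebraMap_eq' rfl

theorem isScalarTower_up :
    letI := algUp (L1 := L1) (K := K) F₀
    letI := algConst (L1 := L1) (K := K) F₀
    IsScalarTower L1 (laurentBaseChange L1 F₀) (laurentBaseChange K F₀) := by
  letI := algUp (L1 := L1) (K := K) F₀
  letI := algConst (L1 := L1) (K := K) F₀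
  refine IsScalarTower.of_algebraMap_eq fun c => ?_
  change algebraMap K (laurentBaseChange K F₀) (algebraMap L1 K c)
    = up F₀ (algebraMap L1 (laurentBaseChange L1 F₀) c)
  exact (up_algebraMap F₀ c).symm

variable [Algebra.IsAlgebraic L1 K]

theorem isAlgebraic_range :
    letI := algUp (L1 := L1) (K := K) F₀
    ∀ y ∈ Set.range (algebraMap K (laurentBaseChange K F₀)),
      IsAlgebraic (laurentBaseChange L1 F₀) y := by
  letI := algUp (L1 := L1) (K := K) F₀
  letI := algConst (L1 := L1) (K := K) F₀
  haveI := isScalarTower_const (L1 := L1) (K := K) F₀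
  haveI := isScalarTower_up (L1 := L1) (K := K) F₀
  rintro _ ⟨a, rfl⟩
  have h1 : IsAlgebraic L1 a := Algebra.IsAlgebraic.isAlgebraic a
  have h2 : IsAlgebraic L1 (algebraMap K (laurentBaseChange K F₀) a) := h1.algebraMap
  exact h2.tower_top (laurentBaseChange L1 F₀)

/-- Generation in the algebra form: `F_K = F_{L1}[K]`. -/
theorem mem_adjoin_range (z : laurentBaseChange K F₀) :
    letI := algUp (L1 := L1) (K := K) F₀
    z ∈ Algebra.adjoin (laurentBaseChange L1 F₀)
      (Set.range (algebraMap K (laurentBaseChange K F₀))) := by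
  letI := algUp (L1 := L1) (K := K) F₀
  have h1 := IntermediateField.adjoin_toSubalgebra_of_isAlgebraic
    (isAlgebraic_range (L1 := L1) (K := K) F₀)
  have h2 : z ∈ (IntermediateField.adjoin (laurentBaseChange L1 F₀)
      (Set.range (algebraMap K (laurentBaseChange K F₀)))).toSubalgebra := by
    rw [adjoin_range_eq_top (L1 := L1) (K := K) F₀]; trivial
  rwa [h1] at h2

theorem isAlgebraic_up :
    letI := algUp (L1 := L1) (K := K) F₀
    Algebra.IsAlgebraic (laurentBaseChange L1 F₀) (laurentBaseChange K F₀) := by
  letI := algUp (L1 := L1) (K := K) F₀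
  constructor
  intro z
  have hz := mem_adjoin_range (L1 := L1) (K := K) F₀ z
  have hint : ∀ y ∈ Set.range (algebraMap K (laurentBaseChange K F₀)),
      IsIntegral (laurentBaseChange L1 F₀) y := fun y hy =>
    (isAlgebraic_range (L1 := L1) (K := K) F₀ y hy).isIntegral
  have hle : Algebra.adjoin (laurentBaseChange L1 F₀)
      (Set.range (algebraMap K (laurentBaseChange K F₀)))
      ≤ integralClosure (laurentBaseChange L1 F₀) (laurentBaseChange K F₀) :=
    Algebra.adjoin_le fun y hy => hint y hy
  have : IsIntegral (laurentBaseChange L1 F₀) z := hle hz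
  exact this.isAlgebraic

/-- **Restriction of a place** of `F_K / K` to `F_{L1} / L1`. -/
def down (P : Place K (laurentBaseChange K F₀)) : Place L1 (laurentBaseChange L1 F₀) :=
  letI := algUp (L1 := L1) (K := K) F₀
  letI := algConst (L1 := L1) (K := K) F₀
  haveI := isScalarTower_const (L1 := L1) (K := K) F₀
  haveI := isScalarTower_up (L1 := L1) (K := K) F₀
  haveI := isAlgebraic_up (L1 := L1) (K := K) F₀
  Places.ConstExt.down (L := L1) (FL := laurentBaseChange L1 F₀) P

theorem down_toValuationSubring (P : Place K (laurentBaseChange K F₀)) :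
    (down (L1 := L1) F₀ P).toValuationSubring = P.toValuationSubring.comap (up F₀) := rfl

theorem mem_down_iff (P : Place K (laurentBaseChange K F₀)) (x : laurentBaseChange L1 F₀) :
    x ∈ (down (L1 := L1) F₀ P).toValuationSubring ↔ up F₀ x ∈ P.toValuationSubring := Iff.rfl

/-- **`e = 1`**: `ord_P ∘ up = ord_{down P}`. -/
theorem ord_up (P : Place K (laurentBaseChange K F₀)) (x : laurentBaseChange L1 F₀) :
    P.ord (up F₀ x) = (down (L1 := L1) F₀ P).ord x := by
  letI := algUp (L1 := L1) (K := K) F₀
  letI := algConst (L1 := L1) (K := K) F₀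
  haveI := isScalarTower_const (L1 := L1) (K := K) F₀
  haveI := isScalarTower_up (L1 := L1) (K := K) F₀
  haveI := isAlgebraic_up (L1 := L1) (K := K) F₀
  haveI : CharZero L1 := algebraRat.charZero L1
  exact Places.Unramified.ord_algebraMap_eq (L := L1) (FL := laurentBaseChange L1 F₀)
    (mem_adjoin_range (L1 := L1) (K := K) F₀) P x

/-- Every place of the small field is the restriction of a place of the big field. -/
theorem exists_down_eq (P1 : Place L1 (laurentBaseChange L1 F₀)) :
    ∃ P : Place K (laurentBaseChange K F₀), down (L1 := L1) F₀ P = P1 := by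
  obtain ⟨P, hP⟩ := exists_place_extension (K := K) F₀ P1
  refine ⟨P, ?_⟩
  -- two places of `F_{L1}` with the same `ord` are equal
  apply Place.ext
  ext x
  rcases eq_or_ne x 0 with rfl | hx
  · simp
  rw [Fermat.Agent.S24.mem_iff_ord_nonneg _ hx, Fermat.Agent.S24.mem_iff_ord_nonneg _ hx,
    ← ord_up, hP]

end Fermat.Agent.S18.ConstExt
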